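/-
S48 node (N7), part (a1): irreducibility criterion for a two-dimensional matrix representation.

`ρ : G →* GL (Fin 2) k` without a common eigenvector is irreducible in the sense of Mathlib's
`Representation.IsIrreducible`, for the prelude's `Deformation.matrixRepresentation ρ`.
-/
import Mathlib
import Fermat.Prelude.Def_Deformations_MatrixRepresentation

set_option autoImplicit false

namespace Fermat.Agent.DS.N7

open Matrix

universe u

section Crit

variable {G : Type u} [Group G] {k : Type u} [Field k]

/-- The matrices `ρ g` have a common eigenvector. -/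
def HasCommonEigenvector (ρ : G →* GL (Fin 2) k) : Prop :=
  ∃ v : Fin 2 → k, v ≠ 0 ∧ ∀ g : G, ∃ c : k, (ρ g).val *ᵥ v = c • v

/-- A two-dimensional matrix representation without a common eigenvector is irreducible. -/
theorem isIrreducible_of_not_hasCommonEigenvector (ρ : G →* GL (Fin 2) k)
    (h : ¬ HasCommonEigenvector ρ) :
    (Deformation.matrixRepresentation ρ).IsIrreducible := by
  have key : ∀ W : Subrepresentation (Deformation.matrixRepresentation ρ), W = ⊥ ∨ W = ⊤ := by
    intro W
    have hle : Module.finrank k W.toSubmodule ≤ 2 := by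
      have := Submodule.finrank_le W.toSubmodule
      simpa using this
    rcases Nat.lt_or_ge (Module.finrank k W.toSubmodule) 1 with h0 | h1
    · left
      have h00 : Module.finrank k W.toSubmodule = 0 := by omega
      have : W.toSubmodule = ⊥ := Submodule.finrank_eq_zero.mp h00
      exact Subrepresentation.toSubmodule_injective this
    rcases Nat.lt_or_ge (Module.finrank k W.toSubmodule) 2 with h1' | h2
    · exfalso
      have h1e : Module.finrank k W.toSubmodule = 1 := by omega
      obtain ⟨v, hv0, hv⟩ := finrank_eq_one_iff'.mp h1e
      apply h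
      refine ⟨v.1, fun h0 => hv0 (Subtype.ext h0), fun g => ?_⟩
      have hmem : Deformation.matrixRepresentation ρ g v.1 ∈ W.toSubmodule :=
        W.apply_mem_toSubmodule g v.2
      obtain ⟨c, hc⟩ := hv ⟨_, hmem⟩
      refine ⟨c, ?_⟩
      have := congrArg Subtype.val hc
      simp only [Deformation.matrixRepresentation_apply, Submodule.coe_smul] at this
      simpa using this.symm
    · right
      have : W.toSubmodule = ⊤ := by
        apply Submodule.eq_top_of_finrank_eq
        have h2' : Module.finrank k (Fin 2 → k) = 2 := by simp
        omega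
      exact Subrepresentation.toSubmodule_injective this
  refine { exists_pair_ne := ⟨⊥, ⊤, fun hbt => ?_⟩, eq_bot_or_eq_top := key }
  have h1 : (⊥ : Subrepresentation (Deformation.matrixRepresentation ρ)).toSubmodule
      = (⊤ : Subrepresentation (Deformation.matrixRepresentation ρ)).toSubmodule := by
    rw [hbt]
  have h2 : (⊥ : Submodule k (Fin 2 → k)) = ⊤ := h1
  exact bot_ne_top h2

/-- Transfer of `HasCommonEigenvector` along a surjection. -/
theorem hasCommonEigenvector_comp_iff {Γ : Type u} [Group Γ] (π : Γ →* G)
    (hπ : Function.Surjective π) (ρ : G →* GL (Fin 2) k) :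
    HasCommonEigenvector (ρ.comp π) ↔ HasCommonEigenvector ρ := by
  constructor
  · rintro ⟨v, hv, h⟩
    refine ⟨v, hv, fun g => ?_⟩
    obtain ⟨γ, rfl⟩ := hπ g
    exact h γ
  · rintro ⟨v, hv, h⟩
    exact ⟨v, hv, fun γ => h (π γ)⟩

end Crit

end Fermat.Agent.DS.N7
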