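/-
S48 node (N7), part (a2): a two-dimensional complex representation of a finite group with a common
eigenvector has `2 * |G| ≤ ∑_g ‖tr ρ g‖²`.  No Maschke: the eigen-character `χ₁`, the character
`χ₂ := det / χ₁`, Cayley–Hamilton on the eigenvector (`tr = χ₁ + χ₂`), and the fact that the sum
of a character of a finite group is `0` or `|G|`.
-/
import Mathlib
import Fermat.Agent.DS.N7.IrredCrit

set_option autoImplicit false

namespace Fermat.Agent.DS.N7

open Matrix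

section CH

variable {k : Type*} [Field k]

/-- Cayley–Hamilton evaluated on an eigenvector of a `2 × 2` matrix. -/
theorem eigenvalue_quadratic (A : Matrix (Fin 2) (Fin 2) k) (v : Fin 2 → k) (hv : v ≠ 0) (c : k)
    (hc : A *ᵥ v = c • v) : c ^ 2 - A.trace * c + A.det = 0 := by
  have h1 : A 0 0 * v 0 + A 0 1 * v 1 = c * v 0 := by
    have := congrFun hc 0
    simpa [Matrix.mulVec, dotProduct, Fin.sum_univ_two] using this
  have h2 : A 1 0 * v 0 + A 1 1 * v 1 = c * v 1 := by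
    have := congrFun hc 1
    simpa [Matrix.mulVec, dotProduct, Fin.sum_univ_two] using this
  rw [Matrix.trace_fin_two, Matrix.det_fin_two]
  have e0 : (c ^ 2 - (A 0 0 + A 1 1) * c + (A 0 0 * A 1 1 - A 0 1 * A 1 0)) * v 0 = 0 := by
    linear_combination (A 1 1 - c) * h1 - A 0 1 * h2
  have e1 : (c ^ 2 - (A 0 0 + A 1 1) * c + (A 0 0 * A 1 1 - A 0 1 * A 1 0)) * v 1 = 0 := by
    linear_combination (-A 1 0) * h1 + (A 0 0 - c) * h2
  by_contra hne
  apply hv
  funext i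
  fin_cases i
  · exact (mul_eq_zero.mp e0).resolve_left hne
  · exact (mul_eq_zero.mp e1).resolve_left hne

end CH

section Sum

variable {G : Type} [Group G] [Fintype G]

/-- A character of a finite group with values in `ℂˣ` has norm one. -/
theorem norm_unitsHom_eq_one (χ : G →* ℂˣ) (g : G) : ‖((χ g : ℂˣ) : ℂ)‖ = 1 := by
  have h : (χ g) ^ Fintype.card G = 1 := by
    rw [← map_pow, pow_card_eq_one, map_one]
  have h' : ((χ g : ℂˣ) : ℂ) ^ Fintype.card G = 1 := by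
    have := congrArg (Units.val) h
    simpa using this
  exact Complex.norm_eq_one_of_pow_eq_one h' Fintype.card_ne_zero

/-- The real part of the sum of a character of a finite group is nonnegative. -/
theorem re_sum_unitsHom_nonneg (ψ : G →* ℂˣ) : 0 ≤ (∑ g : G, ((ψ g : ℂˣ) : ℂ)).re := by
  classical
  have h := sum_hom_units ((Units.coeHom ℂ).comp ψ)
  have h' : ∑ g : G, ((ψ g : ℂˣ) : ℂ) =
      if (Units.coeHom ℂ).comp ψ = 1 then (Fintype.card G : ℂ) else ((0 : ℕ) : ℂ) := by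
    simpa using h
  rw [h']
  split_ifs <;> simp

/-- **(a2)** A two-dimensional complex representation of a finite group having a common
eigenvector satisfies `2 * |G| ≤ ∑_g ‖tr ρ g‖²`. -/
theorem two_mul_card_le_sum_normSq_trace (ρ : G →* GL (Fin 2) ℂ) (h : HasCommonEigenvector ρ) :
    2 * (Fintype.card G : ℝ) ≤ ∑ g : G, ‖((ρ g : GL (Fin 2) ℂ) : Matrix (Fin 2) (Fin 2) ℂ).trace‖ ^ 2 := by
  classical
  obtain ⟨v, hv, hc⟩ := h
  choose c hc using hc
  have hc0 : ∀ g, c g ≠ 0 := by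
    intro g h0
    have h1 : (ρ g).val *ᵥ v = 0 := by rw [hc g, h0, zero_smul]
    have hinv : ((ρ g)⁻¹).val *ᵥ ((ρ g).val *ᵥ v) = v := by
      rw [Matrix.mulVec_mulVec, ← Units.val_mul, inv_mul_cancel, Units.val_one, Matrix.one_mulVec]
    rw [h1, Matrix.mulVec_zero] at hinv
    exact hv hinv.symm
  obtain ⟨i, hi⟩ := Function.ne_iff.mp hv
  have hcmul : ∀ g h, c (g * h) = c g * c h := by
    intro g h
    have h1 : (ρ (g * h)).val *ᵥ v = (c g * c h) • v := by
      rw [map_mul, Units.val_mul, ← Matrix.mulVec_mulVec, hc h, Matrix.mulVec_smul, hc g,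
        smul_smul, mul_comm]
    rw [hc (g * h)] at h1
    have h2 := congrFun h1 i
    simp only [Pi.smul_apply, smul_eq_mul] at h2
    exact mul_right_cancel₀ hi h2
  have hc1 : c 1 = 1 := by
    have h1 := hcmul 1 1
    rw [mul_one] at h1
    have h2 : c 1 * 1 = c 1 * c 1 := by rw [mul_one]; exact h1
    exact (mul_left_cancel₀ (hc0 1) h2).symm
  let χ₁ : G →* ℂˣ :=
    { toFun := fun g => Units.mk0 (c g) (hc0 g)
      map_one' := by ext; simp [hc1]
      map_mul' := fun g h => by ext; simp [hcmul] }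
  let δ : G →* ℂˣ := Matrix.GeneralLinearGroup.det.comp ρ
  let χ₂ : G →* ℂˣ := δ * χ₁⁻¹
  have hχ₁ : ∀ g, ((χ₁ g : ℂˣ) : ℂ) = c g := fun g => rfl
  have hδ : ∀ g, ((δ g : ℂˣ) : ℂ) = ((ρ g : GL (Fin 2) ℂ) : Matrix (Fin 2) (Fin 2) ℂ).det := by
    intro g; rfl
  have hχ₂ : ∀ g, ((χ₂ g : ℂˣ) : ℂ) =
      ((ρ g : GL (Fin 2) ℂ) : Matrix (Fin 2) (Fin 2) ℂ).det * (c g)⁻¹ := by
    intro g
    simp only [χ₂, MonoidHom.mul_apply, MonoidHom.inv_apply, Units.val_mul, Units.val_inv_eq_inv_val,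
      hδ, hχ₁]
  have htr : ∀ g, ((ρ g : GL (Fin 2) ℂ) : Matrix (Fin 2) (Fin 2) ℂ).trace =
      ((χ₁ g : ℂˣ) : ℂ) + ((χ₂ g : ℂˣ) : ℂ) := by
    intro g
    have hq := eigenvalue_quadratic (ρ g).val v hv (c g) (hc g)
    rw [hχ₁, hχ₂]
    have hcg := hc0 g
    field_simp
    linear_combination (-1 : ℂ) * hq
  let ψ : G →* ℂˣ := χ₁ * χ₂⁻¹
  have hterm : ∀ g, ‖((ρ g : GL (Fin 2) ℂ) : Matrix (Fin 2) (Fin 2) ℂ).trace‖ ^ 2 =
      2 + 2 * (((ψ g : ℂˣ) : ℂ)).re := by
    intro g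
    rw [htr g, Complex.sq_norm, Complex.normSq_add, ← Complex.sq_norm, ← Complex.sq_norm,
      norm_unitsHom_eq_one, norm_unitsHom_eq_one, ← Complex.inv_eq_conj (norm_unitsHom_eq_one χ₂ g)]
    have : ((ψ g : ℂˣ) : ℂ) = ((χ₁ g : ℂˣ) : ℂ) * (((χ₂ g : ℂˣ) : ℂ))⁻¹ := by
      simp only [ψ, MonoidHom.mul_apply, MonoidHom.inv_apply, Units.val_mul,
        Units.val_inv_eq_inv_val]
    rw [this]
    ring
  calc 2 * (Fintype.card G : ℝ)
      ≤ 2 * (Fintype.card G : ℝ) + 2 * (∑ g : G, ((ψ g : ℂˣ) : ℂ)).re := by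
        have := re_sum_unitsHom_nonneg ψ
        linarith
    _ = ∑ g : G, (2 + 2 * (((ψ g : ℂˣ) : ℂ)).re) := by
        rw [Finset.sum_add_distrib, ← Finset.mul_sum, Complex.re_sum]
        simp [mul_comm]
    _ = ∑ g : G, ‖((ρ g : GL (Fin 2) ℂ) : Matrix (Fin 2) (Fin 2) ℂ).trace‖ ^ 2 := by
        refine Finset.sum_congr rfl (fun g _ => ?_)
        rw [hterm g]

end Sum

end Fermat.Agent.DS.N7
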