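/-
S48 node (N7), part (a3): the analytic comparison.

Abstract form: a finite set `κ` of classes, weights `w i s ≥ 0` indexed by `i : ι` (the primes),
a comparison function `L s → +∞` along a filter `F` (`L s = log (1/(s-1))`, `F = 𝓝[>] 1`),
lower densities `d C` of the classes (Chebotarev: `d C * L s - B ≤ ∑_{cls i = C} w i s`) and an
upper bound `∑ T (cls i) * w i s ≤ L s + B` (elementary Rankin) give `∑_C T C * d C ≤ 1`.
-/
import Mathlib

set_option autoImplicit false

namespace Fermat.Agent.DS.N7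

open Filter Topology

section Abstract

variable {κ ι : Type*} [Fintype κ]

/-- **Abstract density comparison.** -/
theorem sum_mul_density_le_one
    (w : ι → ℝ → ℝ) (L : ℝ → ℝ) (F : Filter ℝ) [F.NeBot]
    (hL : Tendsto L F atTop)
    (hw : ∀ i s, 0 ≤ w i s)
    (hsum : ∀ᶠ s in F, Summable (fun i => w i s))
    (cls : ι → κ) (d : κ → ℝ)
    (hCheb : ∀ C : κ, ∃ B : ℝ, ∀ᶠ s in F,
      d C * L s - B ≤ ∑' i, Set.indicator {j | cls j = C} (fun j => w j s) i)
    (T : κ → ℝ) (hT : ∀ C, 0 ≤ T C)
    (hBound : ∃ B : ℝ, ∀ᶠ s in F, ∑' i, T (cls i) * w i s ≤ L s + B) :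
    ∑ C, T C * d C ≤ 1 := by
  choose B hB using hCheb
  obtain ⟨B0, hB0⟩ := hBound
  classical
  have hBall : ∀ᶠ s in F, ∀ C : κ, d C * L s - B C ≤ ∑' i, (if cls i = C then w i s else 0) := by
    refine eventually_all.mpr (fun C => (hB C).mono (fun s hs => ?_))
    refine hs.trans (le_of_eq ?_)
    refine tsum_congr (fun i => ?_)
    by_cases h : cls i = C
    · simp [Set.indicator, h]
    · simp [Set.indicator, h]
  have ev : ∀ᶠ s in F, (∑ C, T C * d C - 1) * L s ≤ B0 + ∑ C, T C * B C := by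
    filter_upwards [hsum, hB0, hBall] with s hs h0 hC
    have hsumC : ∀ C, Summable (fun i => if cls i = C then w i s else 0) := by
      intro C
      refine Summable.of_nonneg_of_le (fun i => ?_) (fun i => ?_) hs
      · split_ifs
        · exact hw i s
        · exact le_refl _
      · split_ifs
        · exact le_refl _
        · exact hw i s
    have key : ∑' i, T (cls i) * w i s
        = ∑ C, T C * ∑' i, (if cls i = C then w i s else 0) := by
      have h1 : (fun i => T (cls i) * w i s)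
          = fun i => ∑ C, T C * (if cls i = C then w i s else 0) := by
        funext i
        rw [Finset.sum_eq_single (cls i)]
        · simp
        · intro C _ hne
          simp [Ne.symm hne]
        · intro h
          exact absurd (Finset.mem_univ _) h
      rw [h1, Summable.tsum_finsetSum]
      · refine Finset.sum_congr rfl (fun C _ => ?_)
        rw [tsum_mul_left]
      · intro C _
        exact (hsumC C).mul_left _
    have h2 : ∑ C, T C * (d C * L s - B C) ≤ ∑ C, T C * ∑' i, (if cls i = C then w i s else 0) :=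
      Finset.sum_le_sum (fun C _ => mul_le_mul_of_nonneg_left (hC C) (hT C))
    have h3 : ∑ C, T C * (d C * L s - B C) = (∑ C, T C * d C) * L s - ∑ C, T C * B C := by
      rw [Finset.sum_mul, ← Finset.sum_sub_distrib]
      refine Finset.sum_congr rfl (fun C _ => ?_)
      ring
    rw [← key] at h2
    rw [h3] at h2
    nlinarith [h2, h0]
  by_contra hlt
  rw [not_le] at hlt
  have hpos : 0 < ∑ C, T C * d C - 1 := by linarith
  have hT' : Tendsto (fun s => (∑ C, T C * d C - 1) * L s) F atTop :=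
    Tendsto.const_mul_atTop hpos hL
  have hge := (tendsto_atTop.mp hT') (B0 + ∑ C, T C * B C + 1)
  obtain ⟨s, hs1, hs2⟩ := (ev.and hge).exists
  linarith

end Abstract

section Group

variable {G : Type*} [Group G] [Fintype G]

/-- Sum over a finite group of a class function, grouped by conjugacy classes. -/
theorem sum_eq_sum_conjClasses [Fintype (ConjClasses G)] (T : ConjClasses G → ℝ) :
    ∑ g : G, T (ConjClasses.mk g) = ∑ C : ConjClasses G, T C * (Nat.card C.carrier : ℝ) := by
  classical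
  rw [← Finset.sum_fiberwise (s := Finset.univ) (g := fun g : G => ConjClasses.mk g)
    (f := fun g => T (ConjClasses.mk g))]
  refine Finset.sum_congr rfl (fun C _ => ?_)
  have h1 : ∀ g ∈ Finset.univ.filter (fun g : G => ConjClasses.mk g = C),
      T (ConjClasses.mk g) = T C := by
    intro g hg
    rw [(Finset.mem_filter.mp hg).2]
  rw [Finset.sum_congr rfl h1, Finset.sum_const, nsmul_eq_mul, mul_comm]
  congr 2
  rw [Nat.card_eq_fintype_card, ← Set.toFinset_card]
  congr 1
  ext g
  simp [ConjClasses.mem_carrier_iff_mk_eq]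

/-- **(a3)** Chebotarev lower bounds for all conjugacy classes plus the upper bound
`∑ ‖a i‖² w i s ≤ L s + B` for `a i = χ (Frob_i)` give `∑_g ‖χ g‖² ≤ |G|`. -/
theorem sum_normSq_le_card_of_density {ι : Type*}
    (w : ι → ℝ → ℝ) (L : ℝ → ℝ) (F : Filter ℝ) [F.NeBot]
    (hL : Tendsto L F atTop)
    (hw : ∀ i s, 0 ≤ w i s)
    (hsum : ∀ᶠ s in F, Summable (fun i => w i s))
    (cls : ι → ConjClasses G)
    (hCheb : ∀ C : ConjClasses G, ∃ B : ℝ, ∀ᶠ s in F,
      ((Nat.card C.carrier : ℝ) / (Fintype.card G : ℝ)) * L s - B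
        ≤ ∑' i, Set.indicator {j | cls j = C} (fun j => w j s) i)
    (χ : G → ℂ) (hχ : ∀ g h : G, χ (h * g * h⁻¹) = χ g)
    (a : ι → ℂ) (ha : ∀ i g, ConjClasses.mk g = cls i → a i = χ g)
    (hBound : ∃ B : ℝ, ∀ᶠ s in F, ∑' i, ‖a i‖ ^ 2 * w i s ≤ L s + B) :
    ∑ g : G, ‖χ g‖ ^ 2 ≤ Fintype.card G := by
  classical
  let T : ConjClasses G → ℝ := Quotient.lift (fun g => ‖χ g‖ ^ 2) (by
    intro g g' hgg'
    obtain ⟨c, hc⟩ := isConj_iff.mp hgg'
    show ‖χ g‖ ^ 2 = ‖χ g'‖ ^ 2
    rw [← hc, hχ])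
  have hTmk : ∀ g, T (ConjClasses.mk g) = ‖χ g‖ ^ 2 := fun g => rfl
  have hT : ∀ C, 0 ≤ T C := by
    intro C
    obtain ⟨g, rfl⟩ := ConjClasses.exists_rep C
    rw [hTmk]; positivity
  have haT : ∀ i, ‖a i‖ ^ 2 = T (cls i) := by
    intro i
    obtain ⟨g, hg⟩ := ConjClasses.exists_rep (cls i)
    rw [← hg, hTmk, ha i g hg]
  have hBound' : ∃ B : ℝ, ∀ᶠ s in F, ∑' i, T (cls i) * w i s ≤ L s + B := by
    obtain ⟨B, hB⟩ := hBound
    refine ⟨B, hB.mono (fun s hs => ?_)⟩
    simpa only [haT] using hs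
  have hmain := sum_mul_density_le_one w L F hL hw hsum cls
    (fun C => (Nat.card C.carrier : ℝ) / (Fintype.card G : ℝ)) hCheb T hT hBound'
  have hcard : (0 : ℝ) < Fintype.card G := by exact_mod_cast Fintype.card_pos
  have h1 : ∑ g : G, ‖χ g‖ ^ 2 = ∑ C : ConjClasses G, T C * (Nat.card C.carrier : ℝ) := by
    rw [← sum_eq_sum_conjClasses T]
    exact Finset.sum_congr rfl (fun g _ => (hTmk g).symm)
  rw [h1]
  have h2 : ∑ C : ConjClasses G, T C * ((Nat.card C.carrier : ℝ) / (Fintype.card G : ℝ))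
      = (∑ C : ConjClasses G, T C * (Nat.card C.carrier : ℝ)) / (Fintype.card G : ℝ) := by
    rw [Finset.sum_div]
    refine Finset.sum_congr rfl (fun C _ => ?_)
    ring
  rw [h2, div_le_one hcard] at hmain
  exact hmain

end Group

end Fermat.Agent.DS.N7
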