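/-
S48 node (N7), part (a): irreducibility of a two-dimensional complex representation with finite
image from
* Chebotarev lower bounds for every conjugacy class (node (N8)), and
* the elementary Rankin bound `∑ ‖a_p‖² p^{-s} ≤ log (1/(s-1)) + O(1)` (node (N1)(ii)),
both in hypothesis form.
-/
import Mathlib
import Fermat.Agent.DS.N7.IrredCrit
import Fermat.Agent.DS.N7.CharSum
import Fermat.Agent.DS.N7.Density

set_option autoImplicit false

namespace Fermat.Agent.DS.N7

open Filter Topology Matrix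

section Assemble

variable {Γ G : Type} [Group Γ] [Group G] [Fintype G]

/-- **(N7)(a), abstract weights.** -/
theorem isIrreducible_of_density (π : Γ →* G) (hπ : Function.Surjective π)
    (ρ : G →* GL (Fin 2) ℂ) {ι : Type*}
    (w : ι → ℝ → ℝ) (L : ℝ → ℝ) (F : Filter ℝ) [F.NeBot]
    (hL : Tendsto L F atTop)
    (hw : ∀ i s, 0 ≤ w i s)
    (hsum : ∀ᶠ s in F, Summable (fun i => w i s))
    (cls : ι → ConjClasses G)
    (hCheb : ∀ C : ConjClasses G, ∃ B : ℝ, ∀ᶠ s in F,
      ((Nat.card C.carrier : ℝ) / (Fintype.card G : ℝ)) * L s - B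
        ≤ ∑' i, Set.indicator {j | cls j = C} (fun j => w j s) i)
    (a : ι → ℂ)
    (ha : ∀ i g, ConjClasses.mk g = cls i →
      a i = ((ρ g : GL (Fin 2) ℂ) : Matrix (Fin 2) (Fin 2) ℂ).trace)
    (hBound : ∃ B : ℝ, ∀ᶠ s in F, ∑' i, ‖a i‖ ^ 2 * w i s ≤ L s + B) :
    (Deformation.matrixRepresentation (ρ.comp π)).IsIrreducible := by
  apply isIrreducible_of_not_hasCommonEigenvector
  rw [hasCommonEigenvector_comp_iff π hπ ρ]
  intro hce
  have h1 := two_mul_card_le_sum_normSq_trace ρ hce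
  have h2 := sum_normSq_le_card_of_density w L F hL hw hsum cls hCheb
    (fun g => ((ρ g : GL (Fin 2) ℂ) : Matrix (Fin 2) (Fin 2) ℂ).trace)
    (by
      intro g h
      simp only [map_mul, map_inv, Units.val_mul]
      rw [Matrix.trace_mul_comm, ← Units.val_mul, ← Units.val_mul, inv_mul_cancel_left])
    a ha hBound
  have hcard : (0 : ℝ) < Fintype.card G := by exact_mod_cast Fintype.card_pos
  linarith

end Assemble

section Primes

/-- `log (1/(s-1)) → +∞` as `s → 1+`. -/
theorem tendsto_log_one_div_sub_one :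
    Tendsto (fun s : ℝ => Real.log (1 / (s - 1))) (𝓝[>] (1 : ℝ)) atTop := by
  have h1 : Tendsto (fun s : ℝ => s - 1) (𝓝[>] (1 : ℝ)) (𝓝[>] (0 : ℝ)) := by
    refine tendsto_nhdsWithin_iff.mpr ⟨?_, ?_⟩
    · have : Tendsto (fun s : ℝ => s - 1) (𝓝 (1 : ℝ)) (𝓝 (1 - 1)) :=
        (continuous_id.sub continuous_const).tendsto 1
      rw [sub_self] at this
      exact this.mono_left nhdsWithin_le_nhds
    · filter_upwards [self_mem_nhdsWithin] with s hs
      exact sub_pos.mpr (Set.mem_Ioi.mp hs)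
  have h2 : Tendsto (fun s : ℝ => (s - 1)⁻¹) (𝓝[>] (1 : ℝ)) atTop :=
    tendsto_inv_nhdsGT_zero.comp h1
  have h3 := Real.tendsto_log_atTop.comp h2
  refine h3.congr (fun s => ?_)
  simp [one_div]

variable {Γ G : Type} [Group Γ] [Group G] [Fintype G]

/-- **(N7)(a), primes.** The index set is any set `P` of primes, the weights are `p ^ (-s)`, the
comparison function is `log (1/(s-1))` along `s → 1+`. -/
theorem isIrreducible_of_prime_density (π : Γ →* G) (hπ : Function.Surjective π)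
    (ρ : G →* GL (Fin 2) ℂ) (P : Set Nat.Primes)
    (cls : P → ConjClasses G)
    (hCheb : ∀ C : ConjClasses G, ∃ B : ℝ, ∀ᶠ s in 𝓝[>] (1 : ℝ),
      ((Nat.card C.carrier : ℝ) / (Fintype.card G : ℝ)) * Real.log (1 / (s - 1)) - B
        ≤ ∑' p : P, Set.indicator {q | cls q = C} (fun q : P => ((q : Nat.Primes) : ℝ) ^ (-s)) p)
    (a : P → ℂ)
    (ha : ∀ (p : P) g, ConjClasses.mk g = cls p →
      a p = ((ρ g : GL (Fin 2) ℂ) : Matrix (Fin 2) (Fin 2) ℂ).trace)
    (hBound : ∃ B : ℝ, ∀ᶠ s in 𝓝[>] (1 : ℝ),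
      ∑' p : P, ‖a p‖ ^ 2 * ((p : Nat.Primes) : ℝ) ^ (-s) ≤ Real.log (1 / (s - 1)) + B) :
    (Deformation.matrixRepresentation (ρ.comp π)).IsIrreducible := by
  refine isIrreducible_of_density π hπ ρ (fun (p : P) (s : ℝ) => ((p : Nat.Primes) : ℝ) ^ (-s))
    (fun s => Real.log (1 / (s - 1))) (𝓝[>] (1 : ℝ)) tendsto_log_one_div_sub_one
    (fun p s => by positivity) ?_ cls hCheb a ha hBound
  filter_upwards [self_mem_nhdsWithin] with s hs
  have h1 : Summable (fun p : Nat.Primes => ((p : ℕ) : ℝ) ^ (-s)) :=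
    Nat.Primes.summable_rpow.mpr (by
      have : (1 : ℝ) < s := hs
      linarith)
  exact h1.subtype P

end Primes

end Fermat.Agent.DS.N7
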