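/-
S48 node (N7), part (a'): irreducibility in the language of the S48 assembly.

Inputs, both in hypothesis form and both in FINITE-SUM form:
* `hRankin` (node (N1)(ii)): `∑_{p ∈ T} ‖a p‖² p^{-s} ≤ log (1/(s-1)) + C` for every finite set `T`
  of primes outside `B` and `1 < s < 2`;
* `hCheb` (node (N8), output (O4) of `DS/N8`): the weighted Chebotarev lower bound for the class
  function `g ↦ ‖tr r g‖²`, with the Prelude Frobenius predicates.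
Output: `r ∘ π` is irreducible.
-/
import Mathlib
import Fermat.Prelude.Def_GaloisRep_Residual
import Fermat.Agent.DS.N7.IrredCrit
import Fermat.Agent.DS.N7.CharSum
import Fermat.Agent.DS.N7.Irred

set_option autoImplicit false

namespace Fermat.Agent.DS.N7

open Filter Topology Matrix

local notation "Γℚ" => (AlgebraicClosure ℚ ≃ₐ[ℚ] AlgebraicClosure ℚ)

section Top

variable {G : Type} [Group G] [Fintype G]

/-- The weighted Chebotarev lower bound for one class function `w` on `G`, along the finite-level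
surjection `π : G_ℚ → G`, for primes outside `B`: for every `ε > 0` and every `s > 1` close to
`1` there are finitely many primes `p ∉ B` with Frobenius lifts `τ p` such that
`(mean_G w - ε) * log (1/(s-1)) ≤ ∑_p w (π (τ p)) p^{-s}`. -/
def WeightedChebLower (π : Γℚ →* G) (B : Finset ℕ) (w : G → ℝ) : Prop :=
  ∀ ε : ℝ, 0 < ε → ∃ δ : ℝ, 0 < δ ∧ ∀ s : ℝ, 1 < s → s < 1 + δ →
    ∃ (T : Finset ℕ) (τ : ℕ → Γℚ),
      (∀ p ∈ T, p.Prime ∧ p ∉ B ∧ ∃ A : ValuationSubring (AlgebraicClosure ℚ),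
        A.LiesOverPrime p ∧ A.IsFrobeniusAt (τ p) p) ∧
      ((∑ g : G, w g) / (Fintype.card G : ℝ) - ε) * Real.log (1 / (s - 1))
        ≤ ∑ p ∈ T, w (π (τ p)) * (p : ℝ) ^ (-s)

/-- The mean of `‖tr r g‖²` is at most one, from the two analytic inputs. -/
theorem sum_normSq_trace_le_card_of_weightedCheb (π : Γℚ →* G) (r : G →* GL (Fin 2) ℂ)
    (B : Finset ℕ) (a : ℕ → ℂ)
    (htr : ∀ p : ℕ, p.Prime → p ∉ B → ∀ A : ValuationSubring (AlgebraicClosure ℚ),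
      A.LiesOverPrime p → ∀ τ : Γℚ, A.IsFrobeniusAt τ p →
        ((r (π τ) : GL (Fin 2) ℂ) : Matrix (Fin 2) (Fin 2) ℂ).trace = a p)
    (hRankin : ∃ C : ℝ, ∀ s : ℝ, 1 < s → s < 2 → ∀ T : Finset ℕ, (∀ p ∈ T, p.Prime ∧ p ∉ B) →
      ∑ p ∈ T, ‖a p‖ ^ 2 * (p : ℝ) ^ (-s) ≤ Real.log (1 / (s - 1)) + C)
    (hCheb : WeightedChebLower π B
      (fun g => ‖((r g : GL (Fin 2) ℂ) : Matrix (Fin 2) (Fin 2) ℂ).trace‖ ^ 2)) :
    ∑ g : G, ‖((r g : GL (Fin 2) ℂ) : Matrix (Fin 2) (Fin 2) ℂ).trace‖ ^ 2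
      ≤ Fintype.card G := by
  have hcard : (0 : ℝ) < Fintype.card G := by exact_mod_cast Fintype.card_pos
  set S : ℝ := ∑ g : G, ‖((r g : GL (Fin 2) ℂ) : Matrix (Fin 2) (Fin 2) ℂ).trace‖ ^ 2 with hS
  by_contra hlt
  rw [not_le] at hlt
  have hm : 1 < S / (Fintype.card G : ℝ) := by
    rw [lt_div_iff₀ hcard, one_mul]
    exact hlt
  set m : ℝ := S / (Fintype.card G : ℝ) with hmdef
  obtain ⟨C, hC⟩ := hRankin
  obtain ⟨δ, hδ, hδs⟩ := hCheb ((m - 1) / 2) (by linarith)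
  -- for `s` close to `1`: `((m-1)/2) * log (1/(s-1)) ≤ C`
  have ev1 : ∀ᶠ s in 𝓝[>] (1 : ℝ), 1 < s ∧ s < 1 + δ ∧ s < 2 := by
    have h1 : ∀ᶠ s in 𝓝[>] (1 : ℝ), s < 1 + δ :=
      (eventually_lt_nhds (by linarith : (1 : ℝ) < 1 + δ)).filter_mono nhdsWithin_le_nhds
    have h2 : ∀ᶠ s in 𝓝[>] (1 : ℝ), s < 2 :=
      (eventually_lt_nhds (by norm_num : (1 : ℝ) < 2)).filter_mono nhdsWithin_le_nhds
    filter_upwards [self_mem_nhdsWithin, h1, h2] with s hs h1 h2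
    exact ⟨hs, h1, h2⟩
  have ev2 : ∀ᶠ s in 𝓝[>] (1 : ℝ), ((m - 1) / 2) * Real.log (1 / (s - 1)) ≤ C := by
    filter_upwards [ev1] with s hs
    obtain ⟨hs1, hsδ, hs2⟩ := hs
    obtain ⟨T, τ, hT, hle⟩ := hδs s hs1 hsδ
    have hsum : ∑ p ∈ T, ‖((r (π (τ p)) : GL (Fin 2) ℂ) : Matrix (Fin 2) (Fin 2) ℂ).trace‖ ^ 2
          * (p : ℝ) ^ (-s)
        = ∑ p ∈ T, ‖a p‖ ^ 2 * (p : ℝ) ^ (-s) := by
      refine Finset.sum_congr rfl (fun p hp => ?_)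
      obtain ⟨hpp, hpB, A, hA, hτ⟩ := hT p hp
      rw [htr p hpp hpB A hA (τ p) hτ]
    have hR := hC s hs1 hs2 T (fun p hp => ⟨(hT p hp).1, (hT p hp).2.1⟩)
    have hle' : (m - (m - 1) / 2) * Real.log (1 / (s - 1))
        ≤ Real.log (1 / (s - 1)) + C := by
      refine le_trans hle ?_
      rw [hsum]
      exact hR
    nlinarith [hle']
  have hT' : Tendsto (fun s : ℝ => ((m - 1) / 2) * Real.log (1 / (s - 1))) (𝓝[>] (1 : ℝ)) atTop :=
    Tendsto.const_mul_atTop (by linarith) tendsto_log_one_div_sub_one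
  have hge := (tendsto_atTop.mp hT') (C + 1)
  obtain ⟨s, hs1, hs2⟩ := (ev2.and hge).exists
  linarith

/-- **(N7)(a'), S48 language.** -/
theorem isIrreducible_of_weightedCheb (π : Γℚ →* G) (hπ : Function.Surjective π)
    (r : G →* GL (Fin 2) ℂ) (B : Finset ℕ) (a : ℕ → ℂ)
    (htr : ∀ p : ℕ, p.Prime → p ∉ B → ∀ A : ValuationSubring (AlgebraicClosure ℚ),
      A.LiesOverPrime p → ∀ τ : Γℚ, A.IsFrobeniusAt τ p →
        ((r (π τ) : GL (Fin 2) ℂ) : Matrix (Fin 2) (Fin 2) ℂ).trace = a p)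
    (hRankin : ∃ C : ℝ, ∀ s : ℝ, 1 < s → s < 2 → ∀ T : Finset ℕ, (∀ p ∈ T, p.Prime ∧ p ∉ B) →
      ∑ p ∈ T, ‖a p‖ ^ 2 * (p : ℝ) ^ (-s) ≤ Real.log (1 / (s - 1)) + C)
    (hCheb : WeightedChebLower π B
      (fun g => ‖((r g : GL (Fin 2) ℂ) : Matrix (Fin 2) (Fin 2) ℂ).trace‖ ^ 2)) :
    (Deformation.matrixRepresentation (r.comp π)).IsIrreducible := by
  apply isIrreducible_of_not_hasCommonEigenvector
  rw [hasCommonEigenvector_comp_iff π hπ r]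
  intro hce
  have h1 := two_mul_card_le_sum_normSq_trace r hce
  have h2 := sum_normSq_trace_le_card_of_weightedCheb π r B a htr hRankin hCheb
  have hcard : (0 : ℝ) < Fintype.card G := by exact_mod_cast Fintype.card_pos
  linarith

/-- Variant: the Rankin bound in `tsum` form over the primes not dividing `N`
(`B ⊇ N.primeFactors`). -/
theorem rankin_finset_of_tsum (N : ℕ) (hN : N ≠ 0) (B : Finset ℕ)
    (hB : N.primeFactors ⊆ B) (a : ℕ → ℂ) (hbdd : ∃ K : ℝ, ∀ p : ℕ, ‖a p‖ ≤ K)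
    (h : ∃ C : ℝ, ∀ s : ℝ, 1 < s → s < 2 →
      ∑' p : {p : Nat.Primes // ¬ (p : ℕ) ∣ N},
        ‖a ((p : Nat.Primes) : ℕ)‖ ^ 2 * (((p : Nat.Primes) : ℕ) : ℝ) ^ (-s)
          ≤ Real.log (1 / (s - 1)) + C) :
    ∃ C : ℝ, ∀ s : ℝ, 1 < s → s < 2 → ∀ T : Finset ℕ, (∀ p ∈ T, p.Prime ∧ p ∉ B) →
      ∑ p ∈ T, ‖a p‖ ^ 2 * (p : ℝ) ^ (-s) ≤ Real.log (1 / (s - 1)) + C := by
  classical
  obtain ⟨C, hC⟩ := h
  obtain ⟨K, hK⟩ := hbdd
  refine ⟨C, fun s hs1 hs2 T hT => le_trans ?_ (hC s hs1 hs2)⟩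
  -- summability of the full family
  have hsummP : Summable (fun p : Nat.Primes => ((p : ℕ) : ℝ) ^ (-s)) :=
    Nat.Primes.summable_rpow.mpr (by linarith)
  have hsumm : Summable (fun p : {p : Nat.Primes // ¬ (p : ℕ) ∣ N} =>
      ‖a ((p : Nat.Primes) : ℕ)‖ ^ 2 * (((p : Nat.Primes) : ℕ) : ℝ) ^ (-s)) := by
    have h1 : Summable (fun p : {p : Nat.Primes // ¬ (p : ℕ) ∣ N} =>
        K ^ 2 * (((p : Nat.Primes) : ℕ) : ℝ) ^ (-s)) :=
      (hsummP.subtype _).mul_left (K ^ 2)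
    refine Summable.of_nonneg_of_le (fun p => by positivity) (fun p => ?_) h1
    have hK0 : 0 ≤ K := le_trans (norm_nonneg _) (hK 0)
    have : ‖a ((p : Nat.Primes) : ℕ)‖ ^ 2 ≤ K ^ 2 :=
      pow_le_pow_left₀ (norm_nonneg _) (hK _) 2
    exact mul_le_mul_of_nonneg_right this (by positivity)
  -- the finite set `T` as a finset of the subtype
  have hmem : ∀ p ∈ T, ∃ q : {p : Nat.Primes // ¬ (p : ℕ) ∣ N}, ((q : Nat.Primes) : ℕ) = p := by
    intro p hp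
    obtain ⟨hpp, hpB⟩ := hT p hp
    have hnd : ¬ p ∣ N := fun hd => hpB (hB (Nat.mem_primeFactors.mpr ⟨hpp, hd, hN⟩))
    exact ⟨⟨⟨p, hpp⟩, hnd⟩, rfl⟩
  let e : {p : Nat.Primes // ¬ (p : ℕ) ∣ N} → ℕ := fun q => ((q : Nat.Primes) : ℕ)
  have he : Function.Injective e := by
    intro q q' h
    exact Subtype.ext (Subtype.ext h)
  let T' : Finset {p : Nat.Primes // ¬ (p : ℕ) ∣ N} := T.preimage e (he.injOn)
  have hT' : ∑ p ∈ T, ‖a p‖ ^ 2 * (p : ℝ) ^ (-s)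
      = ∑ q ∈ T', ‖a (e q)‖ ^ 2 * ((e q : ℕ) : ℝ) ^ (-s) := by
    rw [Finset.sum_preimage e T he.injOn (fun p => ‖a p‖ ^ 2 * (p : ℝ) ^ (-s))]
    intro p hp hnot
    exfalso
    obtain ⟨q, hq⟩ := hmem p hp
    exact hnot ⟨q, hq⟩
  rw [hT']
  exact hsumm.sum_le_tsum T' (fun q _ => by positivity)

end Top

end Fermat.Agent.DS.N7
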