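/-
S48 node (N7), part (b): the two-prime argument.

If `ρ` satisfies the S48 local conclusion (unramified, trace and determinant of every Frobenius
lift) at all primes `p ∤ N` outside a finite set `B`, and `ρ'` does at all `p ∤ N` outside a finite
set `B'` disjoint from `B`, then `ρ` satisfies it at ALL `p ∤ N`.

Input: (FL1) as landed in `GJ/FrobLiftMain` (every value of a finite-level representation is a
power of the value at a Frobenius lift at a prime outside a given finite set).  No density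
statement and no Brauer–Nesbitt: `tr (A ^ j)` and `det (A ^ j)` depend only on `tr A`, `det A`
(Cayley–Hamilton recursion), so `ρ` and `ρ'` have the same trace and determinant on all of `G_ℚ`;
at inertia, `tr = 2`, `det = 1` and finite order force the identity matrix.
-/
import Mathlib
import Fermat.Prelude.Def_GaloisRep_Residual
import Fermat.Agent.GJ.FrobLiftMain

set_option autoImplicit false

namespace Fermat.Agent.DS.N7

open Matrix

local notation "Γℚ" => (AlgebraicClosure ℚ ≃ₐ[ℚ] AlgebraicClosure ℚ)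

section Mat

variable {R : Type*} [CommRing R]

/-- Cayley–Hamilton for `2 × 2` matrices. -/
theorem sq_eq_trace_smul_sub_det (A : Matrix (Fin 2) (Fin 2) R) :
    A * A = A.trace • A - A.det • (1 : Matrix (Fin 2) (Fin 2) R) := by
  ext i j
  fin_cases i <;> fin_cases j <;>
    simp [Matrix.mul_apply, Fin.sum_univ_two, Matrix.trace_fin_two, Matrix.det_fin_two] <;> ring

/-- The Cayley–Hamilton recursion for powers. -/
theorem pow_add_two_eq (A : Matrix (Fin 2) (Fin 2) R) (j : ℕ) :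
    A ^ (j + 2) = A.trace • A ^ (j + 1) - A.det • A ^ j := by
  have h : A ^ (j + 2) = A ^ j * (A * A) := by
    rw [pow_add, pow_two]
  rw [h, sq_eq_trace_smul_sub_det, Matrix.mul_sub, Matrix.mul_smul, Matrix.mul_smul,
    Matrix.mul_one, ← pow_succ]

/-- `tr (A ^ j)` depends only on `tr A` and `det A`. -/
theorem trace_pow_eq_of_trace_det_eq (A B : Matrix (Fin 2) (Fin 2) R)
    (ht : A.trace = B.trace) (hd : A.det = B.det) (j : ℕ) :
    (A ^ j).trace = (B ^ j).trace := by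
  induction j using Nat.strong_induction_on with
  | _ j ih =>
    match j, ih with
    | 0, _ => simp
    | 1, _ => simpa using ht
    | (j + 2), ih =>
      rw [pow_add_two_eq, pow_add_two_eq, Matrix.trace_sub, Matrix.trace_sub, Matrix.trace_smul,
        Matrix.trace_smul, Matrix.trace_smul, Matrix.trace_smul,
        ih (j + 1) (by omega), ih j (by omega), ht, hd]

/-- `det (A ^ j)` depends only on `det A`. -/
theorem det_pow_eq_of_det_eq (A B : Matrix (Fin 2) (Fin 2) R) (hd : A.det = B.det) (j : ℕ) :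
    (A ^ j).det = (B ^ j).det := by
  rw [Matrix.det_pow, Matrix.det_pow, hd]

/-- A `2 × 2` matrix of finite order with trace `2` and determinant `1` over a torsion-free ring
is the identity. -/
theorem eq_one_of_trace_det_of_pow [IsDomain R] [CharZero R] (A : Matrix (Fin 2) (Fin 2) R)
    (ht : A.trace = 2) (hd : A.det = 1) (n : ℕ) (hn : n ≠ 0) (hA : A ^ n = 1) : A = 1 := by
  have hsq : (A - 1) * (A - 1) = 0 := by
    have h := sq_eq_trace_smul_sub_det A
    rw [ht, hd] at h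
    rw [Matrix.sub_mul, Matrix.mul_sub, Matrix.mul_sub, h]
    simp only [Matrix.mul_one, Matrix.one_mul, one_smul, two_smul]
    abel
  have hA' : A = 1 + (A - 1) := by abel
  have hpow : ∀ m : ℕ, (1 + (A - 1)) ^ m = 1 + (m : R) • (A - 1) := by
    intro m
    induction m with
    | zero => simp
    | succ m ih =>
      rw [pow_succ, ih, Matrix.add_mul, Matrix.mul_add, Matrix.mul_add]
      simp only [Matrix.smul_mul, hsq]
      simp only [Matrix.mul_one, Matrix.one_mul, smul_zero, add_zero]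
      rw [Nat.cast_succ, add_smul, one_smul]
      abel
  have h1 := hpow n
  rw [← hA', hA] at h1
  have h2 : (n : R) • (A - 1) = 0 := by
    have := h1
    rw [left_eq_add] at this
    exact this
  have h3 : A - 1 = 0 := by
    ext i j
    have := congrFun (congrFun h2 i) j
    simp only [Matrix.smul_apply, smul_eq_mul, Matrix.zero_apply] at this
    rcases mul_eq_zero.mp this with h | h
    · exact absurd (Nat.cast_eq_zero.mp h) hn
    · simpa using h
  exact sub_eq_zero.mp h3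

end Mat

section Galois

open Fermat.Agent.GJ.FrobLift

/-- The S48 local conclusion at a prime `p`: `ρ` is unramified at `p` and every Frobenius lift at
`p` has trace `t` and determinant `d`. -/
def GoodAt (ρ : Γℚ →* GL (Fin 2) ℂ) (p : ℕ) (t d : ℂ) : Prop :=
  ∀ A : ValuationSubring (AlgebraicClosure ℚ), A.LiesOverPrime p →
    (∀ σ ∈ A.inertiaSubgroupIn ℚ, ρ σ = 1) ∧
    ∀ σ : Γℚ, A.IsFrobeniusAt σ p →
      ((ρ σ : GL (Fin 2) ℂ) : Matrix (Fin 2) (Fin 2) ℂ).trace = t ∧
      ((ρ σ : GL (Fin 2) ℂ) : Matrix (Fin 2) (Fin 2) ℂ).det = d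

/-- The product of two finite-level representations has finite level. -/
theorem factorsThroughFiniteLevel_prod {M M' : Type} [Monoid M] [Monoid M']
    (ρ : Γℚ →* M) (ρ' : Γℚ →* M')
    (hρ : GaloisFactorsThroughFiniteLevel ρ) (hρ' : GaloisFactorsThroughFiniteLevel ρ') :
    GaloisFactorsThroughFiniteLevel (ρ.prod ρ') := by
  obtain ⟨L, hL, h⟩ := hρ
  obtain ⟨L', hL', h'⟩ := hρ'
  have : FiniteDimensional ℚ L := hL
  have : FiniteDimensional ℚ L' := hL'
  refine ⟨L ⊔ L', IntermediateField.finiteDimensional_sup L L', fun σ hσ => ?_⟩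
  have h1 : ρ σ = 1 := h σ (fun x hx => hσ x ((le_sup_left : L ≤ L ⊔ L') hx))
  have h2 : ρ' σ = 1 := h' σ (fun x hx => hσ x ((le_sup_right : L' ≤ L ⊔ L') hx))
  rw [MonoidHom.prod_apply, h1, h2]
  rfl

/-- Every value of a finite-level representation has finite order. -/
theorem exists_pow_eq_one_of_finiteLevel {M : Type} [Monoid M] (ρ : Γℚ →* M)
    (hρ : GaloisFactorsThroughFiniteLevel ρ) (σ : Γℚ) : ∃ n : ℕ, n ≠ 0 ∧ ρ σ ^ n = 1 := by
  obtain ⟨E, hfin, hgal, hlevel⟩ := exists_galois_level ρ hρ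
  have : FiniteDimensional ℚ E := hfin
  have : IsGalois ℚ E := hgal
  have : Finite (E ≃ₐ[ℚ] E) := inferInstance
  refine ⟨orderOf (AlgEquiv.restrictNormalHom E σ), (orderOf_pos _).ne', ?_⟩
  rw [← map_pow, ← map_one ρ]
  apply hlevel
  rw [map_pow, pow_orderOf_eq_one, map_one]

/-- **Trace and determinant agree everywhere** as soon as they agree on Frobenius lifts outside a
finite set of primes. -/
theorem trace_det_eq_of_frobenius (ρ ρ' : Γℚ →* GL (Fin 2) ℂ)
    (hρ : GaloisFactorsThroughFiniteLevel ρ) (hρ' : GaloisFactorsThroughFiniteLevel ρ')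
    (B : Finset ℕ)
    (h : ∀ p : ℕ, p.Prime → p ∉ B → ∀ A : ValuationSubring (AlgebraicClosure ℚ),
      A.LiesOverPrime p → ∀ τ : Γℚ, A.IsFrobeniusAt τ p →
        ((ρ τ : GL (Fin 2) ℂ) : Matrix (Fin 2) (Fin 2) ℂ).trace
          = ((ρ' τ : GL (Fin 2) ℂ) : Matrix (Fin 2) (Fin 2) ℂ).trace ∧
        ((ρ τ : GL (Fin 2) ℂ) : Matrix (Fin 2) (Fin 2) ℂ).det
          = ((ρ' τ : GL (Fin 2) ℂ) : Matrix (Fin 2) (Fin 2) ℂ).det)
    (g : Γℚ) :
    ((ρ g : GL (Fin 2) ℂ) : Matrix (Fin 2) (Fin 2) ℂ).trace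
      = ((ρ' g : GL (Fin 2) ℂ) : Matrix (Fin 2) (Fin 2) ℂ).trace ∧
    ((ρ g : GL (Fin 2) ℂ) : Matrix (Fin 2) (Fin 2) ℂ).det
      = ((ρ' g : GL (Fin 2) ℂ) : Matrix (Fin 2) (Fin 2) ℂ).det := by
  obtain ⟨ℓ, A, τ, j, hℓ, hℓB, hA, hτ, hpow⟩ :=
    exists_isFrobeniusAt_pow' (ρ.prod ρ') (factorsThroughFiniteLevel_prod ρ ρ' hρ hρ') B g
  have h1 : ρ g = ρ τ ^ j := by
    have := congrArg Prod.fst hpow
    simpa using this
  have h2 : ρ' g = ρ' τ ^ j := by
    have := congrArg Prod.snd hpow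
    simpa using this
  obtain ⟨ht, hd⟩ := h ℓ hℓ hℓB A hA τ hτ
  rw [h1, h2, Units.val_pow_eq_pow_val, Units.val_pow_eq_pow_val]
  exact ⟨trace_pow_eq_of_trace_det_eq _ _ ht hd j, det_pow_eq_of_det_eq _ _ hd j⟩

/-- **(N7)(b), the two-prime argument.** -/
theorem goodAt_of_two (N : ℕ) (hN : N ≠ 0) (a e : ℕ → ℂ) (ρ ρ' : Γℚ →* GL (Fin 2) ℂ)
    (hρ : GaloisFactorsThroughFiniteLevel ρ) (hρ' : GaloisFactorsThroughFiniteLevel ρ')
    (B B' : Finset ℕ) (hdisj : Disjoint B B')
    (h : ∀ p : ℕ, p.Prime → ¬ p ∣ N → p ∉ B → GoodAt ρ p (a p) (e p))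
    (h' : ∀ p : ℕ, p.Prime → ¬ p ∣ N → p ∉ B' → GoodAt ρ' p (a p) (e p)) :
    ∀ p : ℕ, p.Prime → ¬ p ∣ N → GoodAt ρ p (a p) (e p) := by
  classical
  have hall : ∀ g : Γℚ,
      ((ρ g : GL (Fin 2) ℂ) : Matrix (Fin 2) (Fin 2) ℂ).trace
        = ((ρ' g : GL (Fin 2) ℂ) : Matrix (Fin 2) (Fin 2) ℂ).trace ∧
      ((ρ g : GL (Fin 2) ℂ) : Matrix (Fin 2) (Fin 2) ℂ).det
        = ((ρ' g : GL (Fin 2) ℂ) : Matrix (Fin 2) (Fin 2) ℂ).det := by
    refine trace_det_eq_of_frobenius ρ ρ' hρ hρ' (B ∪ B' ∪ N.primeFactors) ?_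
    intro p hp hpB A hA τ hτ
    have hpB1 : p ∉ B := fun hm => hpB (Finset.mem_union_left _ (Finset.mem_union_left _ hm))
    have hpB2 : p ∉ B' := fun hm => hpB (Finset.mem_union_left _ (Finset.mem_union_right _ hm))
    have hpN : ¬ p ∣ N := fun hd =>
      hpB (Finset.mem_union_right _ (Nat.mem_primeFactors.mpr ⟨hp, hd, hN⟩))
    obtain ⟨t1, d1⟩ := (h p hp hpN hpB1 A hA).2 τ hτ
    obtain ⟨t2, d2⟩ := (h' p hp hpN hpB2 A hA).2 τ hτ
    exact ⟨t1.trans t2.symm, d1.trans d2.symm⟩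
  intro p hp hpN
  by_cases hpB : p ∈ B
  · have hpB' : p ∉ B' := Finset.disjoint_left.mp hdisj hpB
    intro A hA
    obtain ⟨hin, hfr⟩ := h' p hp hpN hpB' A hA
    refine ⟨fun σ hσ => ?_, fun σ hσ => ?_⟩
    · have h1 := hin σ hσ
      obtain ⟨ht, hd⟩ := hall σ
      rw [h1] at ht hd
      obtain ⟨n, hn, hpow⟩ := exists_pow_eq_one_of_finiteLevel ρ hρ σ
      have hmat : ((ρ σ : GL (Fin 2) ℂ) : Matrix (Fin 2) (Fin 2) ℂ) = 1 := by
        apply eq_one_of_trace_det_of_pow _ _ _ n hn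
        · rw [← Units.val_pow_eq_pow_val, hpow, Units.val_one]
        · rw [ht]; simp
        · rw [hd]; simp
      exact Units.ext hmat
    · obtain ⟨ht, hd⟩ := hall σ
      obtain ⟨t2, d2⟩ := hfr σ hσ
      exact ⟨ht.trans t2, hd.trans d2⟩
  · exact h p hp hpN hpB

end Galois

end Fermat.Agent.DS.N7
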